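import Mathlib

/-!
# The Carlitz module

For a finite field `F` with `q` elements, the ring map `F[T] → End_F R`, `T ↦ (r ↦ T r + r^q)`,
and the Carlitz polynomials `C_a ∈ F[T][x]` computing it.
-/

set_option autoImplicit false

noncomputable section

namespace FA.Carlitz

open Polynomial

variable {F : Type*} [Field F] [Fintype F]

section Action

variable (R : Type*) [CommRing R] [Algebra F R] [Algebra F[X] R]

/-- `r ↦ T r + r ^ q`. -/
def theta : R →ₗ[F] R :=
  LinearMap.mulLeft F (algebraMap F[X] R X) + (FiniteField.frobeniusAlgHom F R).toLinearMap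

/-- The action of `F[T]`. -/
def rho : F[X] →ₐ[F] Module.End F R := aeval (theta (F := F) R)

theorem theta_apply (r : R) :
    theta (F := F) R r = algebraMap F[X] R X * r + r ^ Fintype.card F := by
  simp [theta]

theorem rho_one (r : R) : rho (F := F) R 1 r = r := by
  simp

theorem rho_X (r : R) : rho (F := F) R X r = theta (F := F) R r := by
  simp [rho]

theorem rho_C (c : F) (r : R) : rho (F := F) R (C c) r = c • r := by
  simp [rho, Module.algebraMap_end_apply]

theorem rho_mul (a b : F[X]) (r : R) :
    rho (F := F) R (a * b) r = rho (F := F) R a (rho (F := F) R b r) := by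
  rw [map_mul]
  rfl

variable {R} {S : Type*} [CommRing S] [Algebra F S] [Algebra F[X] S] [IsScalarTower F F[X] R]
  [IsScalarTower F F[X] S]

/-- The action is natural in the algebra. -/
theorem map_rho (g : R →ₐ[F[X]] S) (a : F[X]) (r : R) :
    g (rho (F := F) R a r) = rho (F := F) S a (g r) := by
  induction a using Polynomial.induction_on generalizing r with
  | C c =>
    rw [rho_C, rho_C, ← IsScalarTower.algebraMap_smul F[X] c r,
      ← IsScalarTower.algebraMap_smul F[X] c (g r), map_smul]
  | add p p' hp hp' => simp only [map_add, LinearMap.add_apply, hp, hp']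
  | monomial n c ih =>
    rw [pow_succ, ← mul_assoc, rho_mul R (C c * X ^ n) X, rho_mul S (C c * X ^ n) X, ih, rho_X,
      rho_X, theta_apply, theta_apply, map_add g, map_mul g, map_pow g, AlgHom.commutes]

end Action

/-- The Carlitz polynomial `C_a`. -/
def carlitz (a : F[X]) : F[X][X] := rho (F := F) (F[X][X]) a X

variable {R : Type*} [CommRing R] [Algebra F R] [Algebra F[X] R] [IsScalarTower F F[X] R]

theorem aeval_carlitz (a : F[X]) (r : R) : aeval r (carlitz a) = rho (F := F) R a r := by
  rw [carlitz, map_rho, aeval_X]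

theorem carlitz_one : carlitz (1 : F[X]) = X := rho_one _ _

theorem carlitz_X : carlitz (X : F[X]) = C X * X + X ^ Fintype.card F := by
  rw [carlitz, rho_X, theta_apply]
  rfl

theorem carlitz_add (a b : F[X]) : carlitz (a + b) = carlitz a + carlitz b := by
  simp only [carlitz, map_add, LinearMap.add_apply]

theorem carlitz_smul (c : F) (a : F[X]) : carlitz (c • a) = C (C c) * carlitz a := by
  rw [carlitz, map_smul, LinearMap.smul_apply, Algebra.smul_def]
  rfl

theorem carlitz_mul (a b : F[X]) : carlitz (a * b) = (carlitz a).comp (carlitz b) := by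
  rw [comp_eq_aeval, aeval_carlitz, carlitz, rho_mul]
  rfl

theorem carlitz_dvd {a b : F[X]} (h : a ∣ b) : carlitz a ∣ carlitz b := by
  obtain ⟨c, rfl⟩ := h
  have hX : (X : F[X][X]) ∣ carlitz c := by
    rw [X_dvd_iff, coeff_zero_eq_aeval_zero, aeval_carlitz, map_zero]
  obtain ⟨v, hv⟩ := hX
  rw [mul_comm, carlitz_mul, hv, mul_comp, X_comp]
  exact dvd_mul_right _ _

theorem one_lt_card : 1 < Fintype.card F := Fintype.one_lt_card

/-- The polynomial `C_{T^n}`. -/
theorem carlitz_X_pow (n : ℕ) :
    (carlitz ((X : F[X]) ^ n)).Monic ∧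
      (carlitz ((X : F[X]) ^ n)).natDegree = Fintype.card F ^ n := by
  induction n with
  | zero => simp [carlitz_one]
  | succ n ih =>
    have hq : 1 < Fintype.card F := one_lt_card
    rw [pow_succ', carlitz_mul, carlitz_X]
    simp only [add_comp, mul_comp, C_comp, X_comp, pow_comp]
    have hpow : (carlitz ((X : F[X]) ^ n) ^ Fintype.card F).Monic := ih.1.pow _
    have hdeg : (C (X : F[X]) * carlitz ((X : F[X]) ^ n)).natDegree <
        (carlitz ((X : F[X]) ^ n) ^ Fintype.card F).natDegree := by
      refine (natDegree_C_mul_le _ _).trans_lt ?_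
      rw [ih.1.natDegree_pow, ih.2]
      exact lt_mul_of_one_lt_left (pow_pos (zero_lt_one.trans hq) n) hq
    refine ⟨hpow.add_of_right (degree_lt_degree hdeg), ?_⟩
    rw [natDegree_add_eq_right_of_natDegree_lt hdeg, ih.1.natDegree_pow, ih.2, pow_succ']

theorem natDegree_le_and_coeff {a : F[X]} {n : ℕ} (ha : a.natDegree ≤ n) :
    (carlitz a).natDegree ≤ Fintype.card F ^ n ∧
      (carlitz a).coeff (Fintype.card F ^ n) = C (a.coeff n) := by
  have hsum : carlitz a = ∑ i ∈ Finset.range (n + 1), C (C (a.coeff i)) * carlitz (X ^ i) := by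
    conv_lhs => rw [a.as_sum_range_C_mul_X_pow' (Nat.lt_succ_of_le ha)]
    simp only [carlitz, map_sum, LinearMap.sum_apply, rho_mul, rho_C, Algebra.smul_def]
    rfl
  refine ⟨hsum ▸ natDegree_sum_le_of_forall_le _ _ fun i hi => ?_, ?_⟩
  · refine (natDegree_C_mul_le _ _).trans ?_
    rw [(carlitz_X_pow i).2]
    exact Nat.pow_le_pow_right (Nat.zero_lt_of_lt one_lt_card) (by simp at hi; omega)
  · rw [hsum, finsetSum_coeff, Finset.sum_range_succ, Finset.sum_eq_zero, zero_add, coeff_C_mul]
    · have h := (carlitz_X_pow (F := F) n).1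
      rw [Monic, leadingCoeff, (carlitz_X_pow n).2] at h
      rw [h, mul_one]
    · intro i hi
      rw [coeff_C_mul, coeff_eq_zero_of_natDegree_lt (p := carlitz (X ^ i)), mul_zero]
      rw [(carlitz_X_pow i).2]
      exact Nat.pow_lt_pow_right one_lt_card (by simpa using hi)

theorem natDegree_carlitz {a : F[X]} (ha : a ≠ 0) :
    (carlitz a).natDegree = Fintype.card F ^ a.natDegree ∧
      (carlitz a).leadingCoeff = C a.leadingCoeff := by
  obtain ⟨h1, h2⟩ := natDegree_le_and_coeff (le_refl a.natDegree)
  have h3 : (carlitz a).coeff (Fintype.card F ^ a.natDegree) ≠ 0 := by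
    rw [h2]
    exact C_ne_zero.2 (leadingCoeff_ne_zero.2 ha)
  have h4 := le_antisymm h1 (le_natDegree_of_ne_zero h3)
  exact ⟨h4, by rw [leadingCoeff, h4, h2]; rfl⟩

theorem carlitz_ne_zero {a : F[X]} (ha : a ≠ 0) : carlitz a ≠ 0 := fun h => by
  have h2 := (natDegree_carlitz ha).2
  rw [h, leadingCoeff_zero] at h2
  exact leadingCoeff_ne_zero.2 ha (C_eq_zero.1 h2.symm)

theorem carlitz_monic {a : F[X]} (ha : a.Monic) : (carlitz a).Monic := by
  rw [Monic, (natDegree_carlitz ha.ne_zero).2, ha.leadingCoeff, map_one]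

theorem natCast_card_eq_zero : (Fintype.card F : F[X][X]) = 0 := by
  rw [← map_natCast (algebraMap F F[X][X]), FiniteField.cast_card_eq_zero, map_zero]

theorem derivative_rho (a : F[X]) (f : F[X][X]) :
    derivative (rho (F := F) (F[X][X]) a f) = C a * derivative f := by
  induction a using Polynomial.induction_on generalizing f with
  | C c =>
    rw [rho_C, derivative_smul, Algebra.smul_def]
    rfl
  | add p p' hp hp' => rw [map_add, LinearMap.add_apply, map_add, hp, hp', C_add, add_mul]
  | monomial n c ih =>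
    rw [pow_succ, ← mul_assoc, rho_mul _ (C c * X ^ n) X, ih, rho_X, theta_apply, C_mul (b := X),
      mul_assoc]
    congr 1
    rw [map_add, derivative_pow, map_natCast C, natCast_card_eq_zero, zero_mul, zero_mul, add_zero,
      Polynomial.algebraMap_eq, derivative_C_mul]

theorem derivative_carlitz (a : F[X]) : derivative (carlitz a) = C a := by
  rw [carlitz, derivative_rho, derivative_X, mul_one]

end FA.Carlitz

end
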