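import Fermat.Agent.Carlitz.Torsion

/-!
# The Galois group of a cyclotomic function field

For `M ≠ 0` the splitting field of `C_M` over `F(T)` has group `(F[T] / M)ˣ`. Irreducibility is
Dedekind's argument with `x ↦ x ^ (q ^ deg P)` in place of the `p`-th power.
-/

set_option autoImplicit false

noncomputable section

namespace FA.Carlitz

open Polynomial

variable {F : Type*} [Field F] [Fintype F]

variable {L : Type*} [Field L] [Algebra F[X] L] [Algebra (RatFunc F) L]
  [IsScalarTower F[X] (RatFunc F) L] [Algebra F L] [IsScalarTower F F[X] L]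

variable {M : F[X]} (hM : M ≠ 0)

omit [Fintype F] [Algebra F L] [IsScalarTower F F[X] L] in
theorem algebraMap_injective : Function.Injective (algebraMap F[X] L) := by
  rw [IsScalarTower.algebraMap_eq F[X] (RatFunc F) L]
  exact (algebraMap (RatFunc F) L).injective.comp (IsFractionRing.injective F[X] (RatFunc F))

/-- Automorphisms over `F(T)` commute with the Carlitz action. -/
theorem aut_rho (σ : Gal(L/RatFunc F)) (a : F[X]) (x : L) :
    σ (rho (F := F) L a x) = rho (F := F) L a (σ x) :=
  map_rho ((σ : L →ₐ[RatFunc F] L).restrictScalars F[X]) a x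

omit [Algebra (RatFunc F) L] [IsScalarTower F[X] (RatFunc F) L] [IsScalarTower F F[X] L] in
/-- A multiple by something prime to `M` of a primitive element is primitive. -/
theorem IsPrimitiveTorsion.rho_of_isCoprime {g : L} (hg : IsPrimitiveTorsion g M) {a : F[X]}
    (ha : IsCoprime a M) : IsPrimitiveTorsion (rho (F := F) L a g) M := fun b => by
  rw [← rho_mul, hg]
  exact ⟨fun h => ha.symm.dvd_of_dvd_mul_right h, fun h => dvd_mul_of_dvd_left h a⟩

omit [Algebra (RatFunc F) L] [IsScalarTower F[X] (RatFunc F) L] in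
include hM in
theorem isIntegral_of_root {x : L} (hx : rho (F := F) L M x = 0) : IsIntegral F[X] x := by
  refine ⟨C (C M.leadingCoeff⁻¹) * carlitz M, ?_, ?_⟩
  · rw [Monic, leadingCoeff_mul, leadingCoeff_C, (natDegree_carlitz hM).2, ← C_mul,
      inv_mul_cancel₀ (leadingCoeff_ne_zero.2 hM), C_1]
  · rw [← aeval_def, map_mul, aeval_carlitz, hx, mul_zero]

include hM in
/-- **Dedekind's step**: the minimal polynomial of a primitive element has `C_P` of it as a
root. -/
theorem aeval_minpoly_rho {x : L} (hx : IsPrimitiveTorsion x M) {P : F[X]} (hP : P.Monic)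
    (hirr : Irreducible P) (hPM : ¬ P ∣ M) :
    aeval (rho (F := F) L P x) (minpoly (RatFunc F) x) = 0 := by
  have hinj : Function.Injective (algebraMap F[X] L) := algebraMap_injective
  have : FaithfulSMul F[X] L := (faithfulSMul_iff_algebraMap_injective _ _).2 hinj
  obtain ⟨y, hy⟩ : ∃ y, y = rho (F := F) L P x := ⟨_, rfl⟩
  have hxr : rho (F := F) L M x = 0 := (hx M).2 dvd_rfl
  have hyr : rho (F := F) L M y = 0 := by rw [hy, ← rho_mul, mul_comm, rho_mul, hxr, map_zero]
  have hxi := isIntegral_of_root hM hxr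
  have hyi := isIntegral_of_root hM hyr
  rw [← hy, minpoly.isIntegrallyClosed_eq_field_fractions' (RatFunc F) hxi, aeval_map_algebraMap]
  by_contra hne
  obtain ⟨f, hf⟩ : ∃ f, f = minpoly F[X] x := ⟨_, rfl⟩
  obtain ⟨g, hg⟩ : ∃ g, g = minpoly F[X] y := ⟨_, rfl⟩
  have hfm : f.Monic := hf ▸ minpoly.monic hxi
  have hgm : g.Monic := hg ▸ minpoly.monic hyi
  have hfg : f ≠ g := fun h => hne (by rw [← hf, h, hg]; exact minpoly.aeval _ _)
  -- `f * g` divides `C_M`
  have hmul : f * g ∣ carlitz M := by
    have hi := IsFractionRing.injective F[X] (RatFunc F)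
    rw [← map_dvd_map (algebraMap F[X] (RatFunc F)) hi (hfm.mul hgm), Polynomial.map_mul]
    have hfi : Irreducible (f.map (algebraMap F[X] (RatFunc F))) := by
      rw [hf, ← minpoly.isIntegrallyClosed_eq_field_fractions' (RatFunc F) hxi]
      exact minpoly.irreducible hxi.tower_top
    have hgi : Irreducible (g.map (algebraMap F[X] (RatFunc F))) := by
      rw [hg, ← minpoly.isIntegrallyClosed_eq_field_fractions' (RatFunc F) hyi]
      exact minpoly.irreducible hyi.tower_top
    refine IsCoprime.mul_dvd (hfi.coprime_iff_not_dvd.2 fun h => hfg ?_) ?_ ?_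
    · exact map_injective _ hi (eq_of_monic_of_associated (hfm.map _) (hgm.map _)
        (hfi.associated_of_dvd hgi h))
    · exact Polynomial.map_dvd _ (hf ▸ minpoly.isIntegrallyClosed_dvd hxi
        (by rw [aeval_carlitz, hxr]))
    · exact Polynomial.map_dvd _ (hg ▸ minpoly.isIntegrallyClosed_dvd hyi
        (by rw [aeval_carlitz, hyr]))
  have hcomp : f ∣ g.comp (carlitz P) := hf ▸ minpoly.isIntegrallyClosed_dvd hxi (by
    rw [aeval_comp, aeval_carlitz, ← hy, hg, minpoly.aeval])
  -- reduce modulo `P`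
  have : Fact (Irreducible P) := ⟨hirr⟩
  let pb := AdjoinRoot.powerBasis hP.ne_zero
  have : Module.Finite F (AdjoinRoot P) := pb.finite
  have : Finite (AdjoinRoot P) := Module.finite_of_finite F
  let instFt : Fintype (AdjoinRoot P) := Fintype.ofFinite _
  have hcard : Fintype.card (AdjoinRoot P) = Fintype.card F ^ P.natDegree := by
    rw [Module.card_eq_pow_finrank (K := F), pb.finrank]
    rfl
  obtain ⟨π, hπ⟩ : ∃ π : F[X] →+* AdjoinRoot P, π = AdjoinRoot.mk P := ⟨_, rfl⟩
  have hπP : π P = 0 := by rw [hπ, AdjoinRoot.mk_self]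
  have hπM : π M ≠ 0 := by rw [hπ, Ne, AdjoinRoot.mk_eq_zero]; exact hPM
  have hdvd : f.map π ∣ g.map π ^ Fintype.card (AdjoinRoot P) := by
    rw [← FiniteField.expand_card, expand_eq_comp_X_pow, hcard, ← map_carlitz π hP hirr hπP,
      ← map_comp]
    exact Polynomial.map_dvd π hcomp
  have hsep : (f.map π * g.map π).Separable := by
    refine Separable.of_dvd ?_ (Polynomial.map_mul π (p := f) (q := g) ▸ Polynomial.map_dvd π hmul)
    rw [separable_def, derivative_map, derivative_carlitz, map_C]
    exact ⟨0, C (π M)⁻¹, by rw [zero_mul, zero_add, ← C_mul, inv_mul_cancel₀ hπM, C_1]⟩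
  have hunit : IsUnit (f.map π) := hsep.isCoprime.pow_right.isUnit_of_dvd' dvd_rfl hdvd
  rw [(hfm.map π).isUnit_iff] at hunit
  have hd := hfm.natDegree_map π
  rw [hunit, natDegree_one, hf] at hd
  exact (minpoly.natDegree_pos hxi).ne hd

include hM in
/-- All conjugates prime to `M` occur. -/
theorem aeval_minpoly_rho_monic : ∀ (n : ℕ) (a : F[X]), a.natDegree ≤ n → a.Monic →
    IsCoprime a M → ∀ x : L, IsPrimitiveTorsion x M →
      aeval (rho (F := F) L a x) (minpoly (RatFunc F) x) = 0 := by
  intro n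
  induction n with
  | zero =>
    intro a ha hm _ x _
    rw [hm.natDegree_eq_zero.1 (Nat.le_zero.1 ha), rho_one, minpoly.aeval]
  | succ n ih =>
    intro a ha hm hc x hx
    rcases eq_or_ne a 1 with rfl | hne
    · rw [rho_one, minpoly.aeval]
    obtain ⟨P, hPm, hPi, b, rfl⟩ := Polynomial.exists_monic_irreducible_factor a
      (fun h => hne (hm.isUnit_iff.1 h))
    have hbm : b.Monic := hPm.of_mul_monic_left hm
    have hbn : b.natDegree ≤ n := by
      have := hPi.natDegree_pos
      rw [natDegree_mul hPm.ne_zero hbm.ne_zero] at ha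
      omega
    have hbc : IsCoprime b M := hc.of_mul_left_right
    have hy := hx.rho_of_isCoprime hbc
    have hmin : minpoly (RatFunc F) (rho (F := F) L b x) = minpoly (RatFunc F) x :=
      (minpoly.eq_of_irreducible_of_monic
        (minpoly.irreducible (isIntegral_of_root hM ((hx M).2 dvd_rfl)).tower_top)
        (ih b hbn hbm hbc x hx)
        (minpoly.monic (isIntegral_of_root hM ((hx M).2 dvd_rfl)).tower_top)).symm
    rw [rho_mul, ← hmin]
    exact aeval_minpoly_rho hM hy hPm hPi fun h =>
      hPi.not_isUnit (hc.of_mul_left_left.isUnit_of_dvd' dvd_rfl h)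

omit [Fintype F] in
/-- A monic representative. -/
theorem exists_monic_congr (hM : M ≠ 0) (a : F[X]) : ∃ b : F[X], b.Monic ∧ M ∣ b - a := by
  refine ⟨a + C M.leadingCoeff⁻¹ * M * X ^ (a.natDegree + 1), ?_, ?_⟩
  · have hm : (C M.leadingCoeff⁻¹ * M * X ^ (a.natDegree + 1)).Monic := by
      rw [mul_comm (C _)]
      exact (monic_mul_leadingCoeff_inv hM).mul (monic_X_pow _)
    refine hm.add_of_right (degree_lt_degree ?_)
    rw [natDegree_mul (mul_ne_zero (C_ne_zero.2 (inv_ne_zero (leadingCoeff_ne_zero.2 hM))) hM)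
      (pow_ne_zero _ X_ne_zero), natDegree_X_pow]
    omega
  · rw [add_sub_cancel_left]
    exact dvd_mul_of_dvd_left (dvd_mul_left M _) _

variable [hL : IsSplittingField (RatFunc F) L
  ((carlitz M).map (algebraMap F[X] (RatFunc F)))]

include hL

omit [Algebra F L] [IsScalarTower F F[X] L] in
theorem splits_map : ((carlitz M).map (algebraMap F[X] L)).Splits := by
  have h := IsSplittingField.splits L ((carlitz M).map (algebraMap F[X] (RatFunc F)))
  rwa [Polynomial.map_map, ← IsScalarTower.algebraMap_eq] at h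

include hM in
omit [Algebra F L] [IsScalarTower F F[X] L] [Algebra F[X] L] [IsScalarTower F[X] (RatFunc F) L] in
theorem isGalois : IsGalois (RatFunc F) L :=
  IsGalois.of_separable_splitting_field (p := (carlitz M).map (algebraMap F[X] (RatFunc F)))
    (separable_map hM (IsFractionRing.injective F[X] (RatFunc F)) dvd_rfl)

include hM in
theorem adjoin_eq_top {g : L} (hg : IsPrimitiveTorsion g M) :
    Algebra.adjoin (RatFunc F) ({g} : Set L) = ⊤ := by
  refine top_unique ?_
  rw [← IsSplittingField.adjoin_rootSet L ((carlitz M).map (algebraMap F[X] (RatFunc F))),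
    Algebra.adjoin_le_iff]
  intro x hx
  rw [mem_rootSet, aeval_map_algebraMap, aeval_carlitz] at hx
  obtain ⟨a, rfl⟩ := eq_rho_of_root hM algebraMap_injective splits_map hg hx.2
  rw [← aeval_carlitz, ← aeval_map_algebraMap (RatFunc F)]
  exact aeval_mem_adjoin_singleton _ _

include hM in
/-- **The Galois group.** -/
theorem exists_galEquiv : ∃ χ : Gal(L/RatFunc F) ≃* (F[X] ⧸ Ideal.span {M})ˣ,
    ∀ (σ : Gal(L/RatFunc F)) (a : F[X]),
      Ideal.Quotient.mk (Ideal.span {M}) a = (χ σ : F[X] ⧸ Ideal.span {M}) →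
        ∀ x : L, rho (F := F) L M x = 0 → σ x = rho (F := F) L a x := by
  obtain ⟨g, hg⟩ := exists_primitive hM algebraMap_injective (splits_map (L := L) (M := M))
  have hroot : ∀ σ : Gal(L/RatFunc F), ∃ a, rho (F := F) L a g = σ g := fun σ =>
    eq_rho_of_root hM algebraMap_injective splits_map hg (by
      rw [← aut_rho, (hg M).2 dvd_rfl, map_zero])
  choose A hA using hroot
  have hmk : ∀ (σ : Gal(L/RatFunc F)) (a : F[X]),
      Ideal.Quotient.mk (Ideal.span {M}) a = Ideal.Quotient.mk (Ideal.span {M}) (A σ) ↔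
        rho (F := F) L a g = σ g := fun σ a => by
    rw [Ideal.Quotient.eq, Ideal.mem_span_singleton, ← hg, map_sub, LinearMap.sub_apply, hA,
      sub_eq_zero]
  obtain ⟨ψ, hψ⟩ : ∃ ψ : Gal(L/RatFunc F) →* F[X] ⧸ Ideal.span {M},
      ∀ σ, ψ σ = Ideal.Quotient.mk (Ideal.span {M}) (A σ) := by
    refine ⟨{ toFun := fun σ => Ideal.Quotient.mk (Ideal.span {M}) (A σ),
              map_one' := ?_, map_mul' := fun σ τ => ?_ }, fun σ => rfl⟩
    · rw [← map_one (Ideal.Quotient.mk (Ideal.span {M}))]
      exact ((hmk 1 1).2 (by rw [rho_one]; rfl)).symm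
    · rw [← map_mul]
      refine ((hmk (σ * τ) _).2 ?_).symm
      rw [mul_comm, rho_mul, hA, ← aut_rho, hA]
      rfl
  have hact : ∀ (σ : Gal(L/RatFunc F)) (a : F[X]),
      Ideal.Quotient.mk (Ideal.span {M}) a = ψ σ → ∀ x : L, rho (F := F) L M x = 0 →
        σ x = rho (F := F) L a x := fun σ a ha x hx => by
    rw [hψ, hmk] at ha
    obtain ⟨b, rfl⟩ := eq_rho_of_root hM algebraMap_injective splits_map hg hx
    rw [aut_rho, ← ha, ← rho_mul, ← rho_mul, mul_comm]
  have hinj : Function.Injective ψ.toHomUnits := fun σ τ h => by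
    have h' : ψ σ = ψ τ := by
      have := congrArg Units.val h
      simpa only [MonoidHom.coe_toHomUnits] using this
    rw [hψ, hψ, hmk, hA] at h'
    refine AlgEquiv.coe_toAlgHom_injective (AlgHom.ext_of_adjoin_eq_top (adjoin_eq_top hM hg) ?_)
    rintro x rfl
    exact h'
  have hsurj : Function.Surjective ψ.toHomUnits := fun u => by
    obtain ⟨a, ha⟩ := Ideal.Quotient.mk_surjective (u : F[X] ⧸ Ideal.span {M})
    obtain ⟨b, hbm, hba⟩ := exists_monic_congr hM a
    have hb : Ideal.Quotient.mk (Ideal.span {M}) b = u := by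
      rw [← ha, Ideal.Quotient.eq, Ideal.mem_span_singleton]
      exact hba
    have hbc : IsCoprime b M := by
      obtain ⟨c, hc⟩ := Ideal.Quotient.mk_surjective ((u⁻¹ : (F[X] ⧸ Ideal.span {M})ˣ) :
        F[X] ⧸ Ideal.span {M})
      have h1 : Ideal.Quotient.mk (Ideal.span {M}) (c * b) = Ideal.Quotient.mk _ 1 := by
        rw [map_mul, hc, hb, Units.inv_mul, map_one]
      rw [Ideal.Quotient.eq, Ideal.mem_span_singleton] at h1
      obtain ⟨d, hd⟩ := h1
      exact ⟨c, -d, by linear_combination hd⟩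
    have := isGalois (L := L) hM
    have hgi := (isIntegral_of_root hM ((hg M).2 dvd_rfl)).tower_top (A := RatFunc F)
    obtain ⟨σ, hσ⟩ := minpoly.exists_algEquiv_of_root' hgi.isAlgebraic
      (aeval_minpoly_rho_monic hM b.natDegree b le_rfl hbm hbc g hg)
    exact ⟨σ, Units.ext (by
      rw [MonoidHom.coe_toHomUnits, hψ, ← hb, eq_comm, hmk]; exact hσ.symm)⟩
  exact ⟨MulEquiv.ofBijective ψ.toHomUnits ⟨hinj, hsurj⟩, fun σ a ha => hact σ a ha⟩

include hM in
/-- The degree is the number of units modulo `M`. -/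
theorem finrank_eq : Module.finrank (RatFunc F) L = Nat.card (F[X] ⧸ Ideal.span {M})ˣ := by
  have := isGalois (L := L) hM
  have : FiniteDimensional (RatFunc F) L := IsSplittingField.finiteDimensional L
    ((carlitz M).map (algebraMap F[X] (RatFunc F)))
  obtain ⟨χ, -⟩ := exists_galEquiv (L := L) hM
  rw [← IsGalois.card_aut_eq_finrank]
  exact Nat.card_congr χ.toEquiv

end FA.Carlitz

end
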