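import Fermat.Agent.Carlitz.Basic

/-!
# The Carlitz polynomial of a prime modulo that prime

For monic irreducible `P` of degree `d`, `C_P` reduces to `x ^ (q ^ d)`: its roots in an algebraic
closure form a vector space over `F[T] / P`, and it is inseparable of degree `q ^ d`.
-/

set_option autoImplicit false

noncomputable section

namespace FA.Carlitz

open Polynomial

variable {F : Type*} [Field F] [Fintype F]

variable {Ω : Type*} [Field Ω] [Algebra F Ω] [Algebra F[X] Ω]

/-- An element killed by coprime elements of `F[T]` vanishes. -/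
theorem eq_zero_of_isCoprime {a b : F[X]} (h : IsCoprime a b) {g : Ω}
    (ha : rho (F := F) Ω a g = 0) (hb : rho (F := F) Ω b g = 0) : g = 0 := by
  obtain ⟨u, v, huv⟩ := h
  rw [← rho_one (F := F) Ω g, ← huv, map_add, LinearMap.add_apply, rho_mul, rho_mul, ha, hb,
    map_zero, map_zero, add_zero]

/-- `C_P ≡ x ^ (q ^ d) (mod P)`. -/
theorem map_carlitz {k : Type*} [Field k] (π : F[X] →+* k) {P : F[X]} (hP : P.Monic)
    (hirr : Irreducible P) (hπ : π P = 0) :
    (carlitz P).map π = X ^ (Fintype.card F ^ P.natDegree) := by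
  obtain ⟨φ, hφ⟩ : ∃ φ : F[X] →+* AlgebraicClosure k,
      φ = (algebraMap k (AlgebraicClosure k)).comp π := ⟨_, rfl⟩
  let instA : Algebra F[X] (AlgebraicClosure k) := φ.toAlgebra
  let instF : Algebra F (AlgebraicClosure k) := (φ.comp C).toAlgebra
  have : IsScalarTower F F[X] (AlgebraicClosure k) := IsScalarTower.of_algebraMap_eq fun _ => rfl
  have hφP : φ P = 0 := by rw [hφ, RingHom.comp_apply, hπ, map_zero]
  obtain ⟨f, hf⟩ : ∃ f, f = (carlitz P).map φ := ⟨_, rfl⟩
  have hfm : f.Monic := hf ▸ (carlitz_monic hP).map φ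
  have hfd : f.natDegree = Fintype.card F ^ P.natDegree := by
    rw [hf, (carlitz_monic hP).natDegree_map φ, (natDegree_carlitz hP.ne_zero).1]
  have hsplit : f.Splits := IsAlgClosed.splits f
  have hroot : ∀ g, g ∈ f.roots ↔ rho (F := F) (AlgebraicClosure k) P g = 0 := fun g => by
    rw [mem_roots hfm.ne_zero, IsRoot, hf, eval_map, ← aeval_carlitz]
    rfl
  have hder : derivative f = 0 := by
    rw [hf, derivative_map, derivative_carlitz, map_C, hφP, C_0]
  have hzero : ∀ g ∈ f.roots, g = 0 := by
    intro g hg
    by_contra hne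
    classical
    -- the multiples of `g` give `q ^ d` distinct roots
    obtain ⟨e, he⟩ : ∃ e : (Fin P.natDegree → F) → AlgebraicClosure k, e = fun v =>
        rho (F := F) (AlgebraicClosure k) ((degreeLTEquiv F P.natDegree).symm v : F[X]) g :=
      ⟨_, rfl⟩
    have hinj : Function.Injective e := by
      intro v w hvw
      simp only [he] at hvw
      obtain ⟨b, hb⟩ : ∃ b, b = (degreeLTEquiv F P.natDegree).symm (v - w) := ⟨_, rfl⟩
      have hbg : rho (F := F) (AlgebraicClosure k) (b : F[X]) g = 0 := by
        rw [hb, map_sub, Submodule.coe_sub, map_sub, LinearMap.sub_apply, hvw, sub_self]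
      by_contra hvw'
      have hb0 : (b : F[X]) ≠ 0 := by
        rw [hb]
        simpa [sub_eq_zero] using hvw'
      have hdeg : (b : F[X]).natDegree < P.natDegree := by
        have h := mem_degreeLT.1 b.2
        rwa [degree_eq_natDegree hb0, Nat.cast_lt] at h
      exact hne (eq_zero_of_isCoprime (hirr.coprime_iff_not_dvd.2 fun h =>
        hdeg.not_ge (natDegree_le_of_dvd h hb0)) ((hroot g).1 hg) hbg)
    have hsub : Finset.univ.image e ⊆ f.roots.toFinset := fun x hx => by
      obtain ⟨v, -, rfl⟩ := Finset.mem_image.1 hx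
      rw [Multiset.mem_toFinset, hroot, he]
      simp only
      rw [← rho_mul, mul_comm, rho_mul, (hroot g).1 hg, map_zero]
    have hcard := Finset.card_le_card hsub
    rw [Finset.card_image_of_injective _ hinj, Finset.card_univ, Fintype.card_fun, Fintype.card_fin,
      ← hfd, hsplit.natDegree_eq_card_roots] at hcard
    have hnodup : f.roots.Nodup := Multiset.toFinset_card_eq_card_iff_nodup.1
      (le_antisymm (Multiset.toFinset_card_le _) hcard)
    have hmult : 1 < f.rootMultiplicity g := (one_lt_rootMultiplicity_iff_isRoot hfm.ne_zero).2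
      ⟨(mem_roots hfm.ne_zero).1 hg, by simp [hder]⟩
    rw [← count_roots] at hmult
    exact (Multiset.nodup_iff_count_le_one.1 hnodup g).not_gt hmult
  refine map_injective (algebraMap k (AlgebraicClosure k)) (algebraMap k _).injective ?_
  rw [Polynomial.map_map, ← hφ, ← hf, Polynomial.map_pow, map_X,
    hsplit.eq_prod_roots_of_monic hfm, Multiset.eq_replicate.2
      ⟨hsplit.natDegree_eq_card_roots.symm.trans hfd, hzero⟩,
    Multiset.map_replicate, Multiset.prod_replicate, C_0, sub_zero]

end FA.Carlitz

end
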