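import Fermat.Agent.Carlitz.Reduction

/-!
# The torsion of the Carlitz module is cyclic

In a field where `C_M` splits, `C_N` has `q ^ deg N` distinct roots for every `N ∣ M`; hence some
root has annihilator exactly `(M)` and every root is a multiple of it.
-/

set_option autoImplicit false

noncomputable section

namespace FA.Carlitz

open Polynomial

variable {F : Type*} [Field F] [Fintype F]

variable {L : Type*} [Field L] [Algebra F L] [Algebra F[X] L] [IsScalarTower F F[X] L]

/-- The annihilator of an element. -/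
def annihilatorOf (g : L) : Ideal F[X] where
  carrier := {a | rho (F := F) L a g = 0}
  zero_mem' := by simp
  add_mem' {a b} (ha : rho (F := F) L a g = 0) (hb : rho (F := F) L b g = 0) := by
    simp [ha, hb]
  smul_mem' c {a} (ha : rho (F := F) L a g = 0) := by
    show rho (F := F) L (c * a) g = 0
    rw [rho_mul, ha, map_zero]

/-- `g` has annihilator `(N)`. -/
def IsPrimitiveTorsion (g : L) (N : F[X]) : Prop := ∀ a, rho (F := F) L a g = 0 ↔ N ∣ a

variable {M : F[X]} (hM : M ≠ 0) (hinj : Function.Injective (algebraMap F[X] L))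
  (hsplit : ((carlitz M).map (algebraMap F[X] L)).Splits)

omit [Fintype F] in
include hM in
theorem dvd_ne_zero {N : F[X]} (hN : N ∣ M) : N ≠ 0 := fun h => hM (zero_dvd_iff.1 (h ▸ hN))

omit [Algebra F L] [IsScalarTower F F[X] L] in
include hM hinj in
theorem separable_map {N : F[X]} (hN : N ∣ M) :
    ((carlitz N).map (algebraMap F[X] L)).Separable := by
  rw [separable_def, derivative_map, derivative_carlitz, map_C]
  refine ⟨0, C (algebraMap F[X] L N)⁻¹, ?_⟩
  rw [zero_mul, zero_add, ← C_mul, inv_mul_cancel₀
    ((map_ne_zero_iff _ hinj).2 (dvd_ne_zero hM hN)), C_1]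

include hM hinj in
theorem mem_rootSet_carlitz {N : F[X]} (hN : N ∣ M) {x : L} :
    x ∈ ((carlitz N).map (algebraMap F[X] L)).rootSet L ↔ rho (F := F) L N x = 0 := by
  rw [mem_rootSet, aeval_map_algebraMap, aeval_carlitz,
    and_iff_right ((Polynomial.map_ne_zero_iff hinj).2 (carlitz_ne_zero (dvd_ne_zero hM hN)))]

omit [Algebra F L] [IsScalarTower F F[X] L] in
include hM hinj hsplit in
theorem card_rootSet_carlitz {N : F[X]} (hN : N ∣ M) :
    Nat.card (((carlitz N).map (algebraMap F[X] L)).rootSet L) =
      Fintype.card F ^ N.natDegree := by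
  classical
  rw [Nat.card_eq_fintype_card, card_rootSet_eq_natDegree (separable_map hM hinj hN),
    natDegree_map_eq_of_injective hinj, (natDegree_carlitz (dvd_ne_zero hM hN)).1]
  rw [Algebra.algebraMap_self, Polynomial.map_id]
  exact hsplit.of_dvd ((Polynomial.map_ne_zero_iff hinj).2 (carlitz_ne_zero hM))
    (Polynomial.map_dvd _ (carlitz_dvd hN))

include hM hinj hsplit in
theorem exists_primitive_dvd : ∀ N : F[X], N ∣ M → ∃ g : L, IsPrimitiveTorsion g N := by
  intro N
  induction N using UniqueFactorizationMonoid.induction_on_coprime with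
  | h0 => exact fun h => absurd (zero_dvd_iff.1 h) hM
  | @h1 x hx => exact fun _ => ⟨0, fun a => by simp [hx.dvd]⟩
  | @hpr p i hp =>
    intro hN
    cases i with
    | zero => exact ⟨0, fun a => by simp⟩
    | succ i =>
      have hN' : p ^ i ∣ M := (pow_dvd_pow p i.le_succ).trans hN
      have hlt : Nat.card (((carlitz (p ^ i)).map (algebraMap F[X] L)).rootSet L) <
          Nat.card (((carlitz (p ^ (i + 1))).map (algebraMap F[X] L)).rootSet L) := by
        rw [card_rootSet_carlitz hM hinj hsplit hN', card_rootSet_carlitz hM hinj hsplit hN]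
        refine Nat.pow_lt_pow_right one_lt_card ?_
        rw [natDegree_pow, natDegree_pow, add_mul, one_mul]
        exact Nat.lt_add_of_pos_right hp.irreducible.natDegree_pos
      obtain ⟨g, hg, hg'⟩ : ∃ g : L, rho (F := F) L (p ^ (i + 1)) g = 0 ∧
          rho (F := F) L (p ^ i) g ≠ 0 := by
        by_contra h
        push Not at h
        exact hlt.not_ge (Nat.card_mono (rootSet_finite _ _) fun x hx =>
          (mem_rootSet_carlitz hM hinj hN').2 (h x ((mem_rootSet_carlitz hM hinj hN).1 hx)))
      obtain ⟨n, hn⟩ : ∃ n : F[X], annihilatorOf g = Ideal.span {n} :=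
        (IsPrincipalIdealRing.principal (annihilatorOf (F := F) g)).1.imp fun n h => h
      have hmem : ∀ a, rho (F := F) L a g = 0 ↔ n ∣ a := fun a => by
        rw [← Ideal.mem_span_singleton, ← hn]
        rfl
      obtain ⟨j, hj, hass⟩ := (dvd_prime_pow hp _).1 ((hmem _).1 hg)
      refine ⟨g, fun a => ?_⟩
      rcases hj.lt_or_eq with hj' | rfl
      · exact absurd ((hmem _).2 (hass.dvd.trans (pow_dvd_pow p (Nat.le_of_lt_succ hj')))) hg'
      · rw [hmem a, hass.dvd_iff_dvd_left]
  | @hcp x y hxy ihx ihy =>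
    intro hN
    obtain ⟨g, hg⟩ := ihx ((dvd_mul_right x y).trans hN)
    obtain ⟨h, hh⟩ := ihy ((dvd_mul_left y x).trans hN)
    refine ⟨g + h, fun a => ?_⟩
    constructor
    · intro ha
      have hc : IsCoprime x y := hxy.isCoprime
      refine hc.mul_dvd ?_ ?_
      · have h1 : rho (F := F) L (y * a) (g + h) = 0 := by rw [rho_mul, ha, map_zero]
        rw [map_add, (hh _).2 (dvd_mul_right y a), add_zero, hg] at h1
        exact hc.dvd_of_dvd_mul_left h1
      · have h1 : rho (F := F) L (x * a) (g + h) = 0 := by rw [rho_mul, ha, map_zero]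
        rw [map_add, (hg _).2 (dvd_mul_right x a), zero_add, hh] at h1
        exact hc.symm.dvd_of_dvd_mul_left h1
    · intro ha
      rw [map_add, (hg a).2 ((dvd_mul_right x y).trans ha),
        (hh a).2 ((dvd_mul_left y x).trans ha), add_zero]

include hM hinj hsplit in
theorem exists_primitive : ∃ g : L, IsPrimitiveTorsion g M :=
  exists_primitive_dvd hM hinj hsplit M dvd_rfl

include hM hinj hsplit in
/-- Every root of `C_M` is a multiple of a primitive one. -/
theorem eq_rho_of_root {g : L} (hg : IsPrimitiveTorsion g M) {x : L}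
    (hx : rho (F := F) L M x = 0) : ∃ a, rho (F := F) L a g = x := by
  classical
  obtain ⟨e, he⟩ : ∃ e : (Fin M.natDegree → F) →
      ((carlitz M).map (algebraMap F[X] L)).rootSet L, e = fun v =>
        ⟨rho (F := F) L ((degreeLTEquiv F M.natDegree).symm v : F[X]) g,
          (mem_rootSet_carlitz hM hinj dvd_rfl).2 (by
            rw [← rho_mul]; exact (hg _).2 (dvd_mul_right M _))⟩ := ⟨_, rfl⟩
  have hei : Function.Injective e := by
    intro v w hvw
    simp only [he, Subtype.mk.injEq] at hvw
    obtain ⟨b, hb⟩ : ∃ b, b = (degreeLTEquiv F M.natDegree).symm (v - w) := ⟨_, rfl⟩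
    have hbg : M ∣ (b : F[X]) := (hg _).1 (by
      rw [hb, map_sub, Submodule.coe_sub, map_sub, LinearMap.sub_apply, hvw, sub_self])
    have hb0 : (b : F[X]) = 0 := eq_zero_of_dvd_of_degree_lt hbg (by
      rw [degree_eq_natDegree hM]
      exact mem_degreeLT.1 b.2)
    rw [hb, Submodule.coe_eq_zero] at hb0
    simpa [sub_eq_zero] using hb0
  have hbij : Function.Bijective e := by
    refine (Fintype.bijective_iff_injective_and_card e).2 ⟨hei, ?_⟩
    rw [Fintype.card_fun, Fintype.card_fin, ← Nat.card_eq_fintype_card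
      (α := ((carlitz M).map (algebraMap F[X] L)).rootSet L),
      card_rootSet_carlitz hM hinj hsplit dvd_rfl]
  obtain ⟨v, hv⟩ := hbij.2 ⟨x, (mem_rootSet_carlitz hM hinj dvd_rfl).2 hx⟩
  rw [he] at hv
  exact ⟨_, congrArg Subtype.val hv⟩

end FA.Carlitz

end
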